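import Fermat.Agent.S26.Ample.Spec

/-!
# Row S26, block AMPLE, leaf AM-TA (helper370): `Ample.Stmt.TranslAffine`

For an affine open `U` of an abelian variety `A` and a `K`-point `x`, the set
`(U - x) ∩ (U + x)` is an affine open: translations are isomorphisms (`Stmt.TranslIso`),
and `A` is separated over the affine scheme `Spec K`, so that the intersection of two affine
opens is affine.
-/

set_option autoImplicit false
universe u

open CategoryTheory CategoryTheory.Limits AlgebraicGeometry NeronModelInfra GoodReductionJacobian

namespace Fermat.Agent.S26.H370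

/-- On a scheme separated over an affine base, the intersection of two affine opens is an
affine open. -/
theorem isAffineOpen_inf_of_isSeparated {X S : Scheme.{u}} (f : X ⟶ S) [IsSeparated f]
    [IsAffine S] {U V : X.Opens} (hU : IsAffineOpen U) (hV : IsAffineOpen V) :
    IsAffineOpen (U ⊓ V) := by
  have h : IsAffineHom (pullback.diagonal f) := inferInstance
  exact isAffineHom_diagonal_iff.mp h ⊤ (isAffineOpen_top S) U (by simp) V (by simp) hU hV

/-- The preimage of an affine open under two isomorphisms of a scheme separated over an affine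
base: the intersection is an affine open with the expected points. -/
theorem exists_isAffineOpen_preimage_inf {X S : Scheme.{u}} (f : X ⟶ S) [IsSeparated f]
    [IsAffine S] (σ τ : X ⟶ X) [IsIso σ] [IsIso τ] {U : X.Opens} (hU : IsAffineOpen U) :
    ∃ W : X.Opens, IsAffineOpen W ∧ ∀ y : X, y ∈ W ↔ (σ y ∈ U ∧ τ y ∈ U) :=
  ⟨σ ⁻¹ᵁ U ⊓ τ ⁻¹ᵁ U,
    isAffineOpen_inf_of_isSeparated f (hU.preimage_of_isIso σ) (hU.preimage_of_isIso τ),
    fun _ => Iff.rfl⟩

/-- The structure morphism of an abelian variety is separated. -/
theorem isSeparated_str {K : Type u} [Field K] (X : AbVar K) : IsSeparated X.str :=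
  haveI : IsProper X.str := X.bundle.proper
  inferInstance

/-- AM-TA: `Ample.Stmt.TranslAffine` from `Ample.Stmt.TranslIso`. -/
theorem translAffine_of (K : Type u) [Field K] [IsAlgClosed K]
    (hT : Ample.Stmt.TranslIso K) : Ample.Stmt.TranslAffine K := by
  intro X _ U hU x
  have hsep : IsSeparated X.str := isSeparated_str X
  have h1 : IsIso (X.transl x) := ((hT X).2 x).1
  have h2 : IsIso (X.transl (X.negPt x)) := ((hT X).2 (X.negPt x)).1
  exact exists_isAffineOpen_preimage_inf X.str (X.transl x) (X.transl (X.negPt x)) hU

end Fermat.Agent.S26.H370
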